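import Fermat.Agent.MalgrangeEhrenpreis.Operators
import Mathlib.Analysis.Distribution.SchwartzSpace.Fourier
import Mathlib.Analysis.SpecialFunctions.ImproperIntegrals
import Mathlib.MeasureTheory.Integral.Pi

/-!
# The transform on a vertical line

On `v - 2 π i ξ` the transform is a Fourier transform: its integral recovers the value at the
origin, and it is dominated by derivatives of bounded order.
-/

set_option autoImplicit false

noncomputable section

open MeasureTheory
open scoped ContDiff FourierTransform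

namespace FA.MalgrangeEhrenpreis

variable {n : ℕ} {φ : EuclideanSpace ℝ (Fin n) → ℂ}

/-- The point `v - 2 π i ξ`. -/
def freq (v : Fin n → ℝ) (ξ : EuclideanSpace ℝ (Fin n)) (i : Fin n) : ℂ :=
  v i - 2 * Real.pi * Complex.I * ξ i

/-- The function weighted by a real exponential. -/
def twist (v : Fin n → ℝ) (φ : EuclideanSpace ℝ (Fin n) → ℂ) (x : EuclideanSpace ℝ (Fin n)) : ℂ :=
  Complex.exp (lin (fun i => (v i : ℂ)) x) * φ x

theorem exp_lin_freq (v : Fin n → ℝ) (x ξ : EuclideanSpace ℝ (Fin n)) :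
    Complex.exp (lin (freq v ξ) x) =
      Complex.exp (((-2 * Real.pi * (inner ℝ x ξ : ℝ) : ℝ) : ℂ) * Complex.I) *
        Complex.exp (lin (fun i => (v i : ℂ)) x) := by
  rw [← Complex.exp_add]
  congr 1
  simp only [lin_apply, freq, PiLp.inner_apply, RCLike.inner_apply, conj_trivial]
  push_cast
  rw [Finset.mul_sum, Finset.sum_mul, ← Finset.sum_add_distrib]
  exact Finset.sum_congr rfl fun i _ => by ring

theorem lap_freq (v : Fin n → ℝ) (φ : EuclideanSpace ℝ (Fin n) → ℂ)
    (ξ : EuclideanSpace ℝ (Fin n)) : lap φ (freq v ξ) = 𝓕 (twist v φ) ξ := by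
  rw [Real.fourier_eq']
  simp only [lap, exp_lin_freq, twist, smul_eq_mul, mul_assoc]

theorem norm_exp_lin_freq (v : Fin n → ℝ) (x ξ : EuclideanSpace ℝ (Fin n)) :
    ‖Complex.exp (lin (freq v ξ) x)‖ = ‖Complex.exp (lin (fun i => (v i : ℂ)) x)‖ := by
  rw [exp_lin_freq, norm_mul, Complex.norm_exp_ofReal_mul_I, one_mul]

theorem contDiff_twist (hφ : ContDiff ℝ ∞ φ) (v : Fin n → ℝ) : ContDiff ℝ ∞ (twist v φ) :=
  (lin _).contDiff.cexp.mul hφ

theorem hasCompactSupport_twist (hc : HasCompactSupport φ) (v : Fin n → ℝ) :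
    HasCompactSupport (twist v φ) :=
  hc.mul_left

/-- The twisted function as a Schwartz function. -/
def twistSchwartz (hφ : ContDiff ℝ ∞ φ) (hc : HasCompactSupport φ) (v : Fin n → ℝ) :
    SchwartzMap (EuclideanSpace ℝ (Fin n)) ℂ :=
  (hasCompactSupport_twist hc v).toSchwartzMap (contDiff_twist hφ v)

theorem lap_freq_schwartz (hφ : ContDiff ℝ ∞ φ) (hc : HasCompactSupport φ) (v : Fin n → ℝ) :
    (fun ξ => lap φ (freq v ξ)) =
      ((𝓕 (twistSchwartz hφ hc v) : SchwartzMap (EuclideanSpace ℝ (Fin n)) ℂ) :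
        EuclideanSpace ℝ (Fin n) → ℂ) := by
  funext ξ
  rw [lap_freq, SchwartzMap.fourier_coe]
  rfl

theorem integrable_lap (hφ : ContDiff ℝ ∞ φ) (hc : HasCompactSupport φ) (v : Fin n → ℝ) :
    Integrable fun ξ => lap φ (freq v ξ) := by
  rw [lap_freq_schwartz hφ hc]
  exact SchwartzMap.integrable _

theorem integrable_pow_mul_lap (hφ : ContDiff ℝ ∞ φ) (hc : HasCompactSupport φ) (v : Fin n → ℝ)
    (k : ℕ) : Integrable fun ξ : EuclideanSpace ℝ (Fin n) => ‖ξ‖ ^ k * ‖lap φ (freq v ξ)‖ := by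
  have h : ∀ ξ, lap φ (freq v ξ) = 𝓕 (twistSchwartz hφ hc v) ξ :=
    congrFun (lap_freq_schwartz hφ hc v)
  simp only [h]
  exact SchwartzMap.integrable_pow_mul volume _ k

/-- **The inversion formula at the origin**, the same on every line. -/
theorem integral_lap (hφ : ContDiff ℝ ∞ φ) (hc : HasCompactSupport φ) (v : Fin n → ℝ) :
    ∫ ξ, lap φ (freq v ξ) = φ 0 := by
  have hcont : Continuous (twist v φ) := (contDiff_twist hφ v).continuous
  have hi : Integrable (𝓕 (twist v φ)) := by
    simpa only [lap_freq] using integrable_lap hφ hc v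
  have h := congrFun (hcont.fourierInv_fourier_eq
    (hcont.integrable_of_hasCompactSupport (hasCompactSupport_twist hc v)) hi) 0
  rw [Real.fourierInv_eq'] at h
  simpa [lap_freq, twist, lin_apply] using h

/-- The decay gained from the weight polynomial. -/
def weight (ξ : EuclideanSpace ℝ (Fin n)) : ℝ := ∏ i, (1 + (2 * Real.pi * ξ i) ^ 2)⁻¹

theorem integrable_weight : Integrable (weight (n := n)) := by
  rw [← (PiLp.volume_preserving_toLp (Fin n)).integrable_comp_emb
    (MeasurableEquiv.toLp 2 (Fin n → ℝ)).measurableEmbedding]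
  exact Integrable.fintype_prod (f := fun (_ : Fin n) (t : ℝ) => (1 + (2 * Real.pi * t) ^ 2)⁻¹)
    fun _ => integrable_inv_one_add_sq.comp_mul_left' (by positivity)

theorem weight_nonneg (ξ : EuclideanSpace ℝ (Fin n)) : 0 ≤ weight ξ :=
  Finset.prod_nonneg fun i _ => by positivity

/-- The weight polynomial. -/
def weightPoly (v : Fin n → ℝ) : MvPolynomial (Fin n) ℂ :=
  ∏ i, (1 - (MvPolynomial.X i + MvPolynomial.C ((v i : ℝ) : ℂ)) ^ 2)

theorem eval_weightPoly (v : Fin n → ℝ) (ξ : EuclideanSpace ℝ (Fin n)) :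
    MvPolynomial.eval (-freq v ξ) (weightPoly v) =
      ((∏ i, (1 + (2 * Real.pi * ξ i) ^ 2) : ℝ) : ℂ) := by
  simp only [weightPoly, map_prod, map_sub, map_one, map_pow, map_add, MvPolynomial.eval_X,
    MvPolynomial.eval_C, Pi.neg_apply, freq]
  push_cast
  refine Finset.prod_congr rfl fun i _ => ?_
  linear_combination -(2 * (Real.pi : ℂ) * ξ i) ^ 2 * Complex.I_sq

theorem norm_lap_le (hφ : ContDiff ℝ ∞ φ) (hc : HasCompactSupport φ) (v : Fin n → ℝ)
    (ξ : EuclideanSpace ℝ (Fin n)) :
    ‖lap φ (freq v ξ)‖ ≤ weight ξ * ∫ x, ‖twist v (diffOp (weightPoly v) φ) x‖ := by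
  have h := lap_diffOp hφ hc (weightPoly v) (freq v ξ)
  rw [eval_weightPoly] at h
  have hpos : 0 < ∏ i, (1 + (2 * Real.pi * ξ i) ^ 2) := Finset.prod_pos fun i _ => by positivity
  have e : lap φ (freq v ξ) = (weight ξ : ℂ) * lap (diffOp (weightPoly v) φ) (freq v ξ) := by
    rw [h, ← mul_assoc, ← Complex.ofReal_mul, weight, Finset.prod_inv_distrib,
      inv_mul_cancel₀ hpos.ne', Complex.ofReal_one, one_mul]
  rw [e, norm_mul, Complex.norm_real, Real.norm_of_nonneg (weight_nonneg ξ)]
  refine mul_le_mul_of_nonneg_left ((norm_integral_le_integral_norm _).trans (le_of_eq ?_))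
    (weight_nonneg ξ)
  simp only [twist, norm_mul, norm_exp_lin_freq]

/-- The derivatives of order up to this bound control the transform. -/
def order (v : Fin n → ℝ) : ℕ :=
  (weightPoly v).support.sup fun α => (Finsupp.toMultiset α).toList.length

/-- **The bound by finitely many derivatives.** -/
theorem exists_integral_norm_lap_le (v : Fin n → ℝ) {K : Set (EuclideanSpace ℝ (Fin n))}
    (hK : IsCompact K) :
    ∃ C : ℝ, ∀ φ : EuclideanSpace ℝ (Fin n) → ℂ, ContDiff ℝ ∞ φ → tsupport φ ⊆ K →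
      ∀ M : ℝ, (∀ k ≤ order v, ∀ x, ‖iteratedFDeriv ℝ k φ x‖ ≤ M) →
        ∫ ξ, ‖lap φ (freq v ξ)‖ ≤ C * M := by
  set c := ∑ α ∈ (weightPoly v).support, ‖(weightPoly v).coeff α‖
  set A := ∫ x in K, ‖Complex.exp (lin (fun i => (v i : ℂ)) x)‖
  refine ⟨(∫ ξ, weight (n := n) ξ) * (A * c), fun φ hφ hsub M hM => ?_⟩
  have hc : HasCompactSupport φ := hK.of_isClosed_subset isClosed_closure hsub
  have hD : ∀ x, ‖diffOp (weightPoly v) φ x‖ ≤ c * M := fun x => by
    rw [Finset.sum_mul]
    refine (norm_sum_le _ _).trans (Finset.sum_le_sum fun α hα => ?_)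
    rw [norm_mul]
    exact mul_le_mul_of_nonneg_left ((norm_pd_le _ x).trans (hM _
      (Finset.le_sup (f := fun α => (Finsupp.toMultiset α).toList.length) hα) x)) (norm_nonneg _)
  have hz : ∀ x ∉ K, twist v (diffOp (weightPoly v) φ) x = 0 := fun x hx => by
    rw [twist, image_eq_zero_of_notMem_tsupport fun h => hx (hsub (tsupport_diffOp _ h)), mul_zero]
  have htw : ∫ x, ‖twist v (diffOp (weightPoly v) φ) x‖ ≤ A * (c * M) := by
    rw [← setIntegral_eq_integral_of_forall_compl_eq_zero fun x hx => by rw [hz x hx, norm_zero],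
      ← integral_mul_const]
    refine setIntegral_mono_on
      ((contDiff_twist (contDiff_diffOp hφ _) v).continuous.norm.continuousOn.integrableOn_compact
        hK)
      (((continuous_exp_lin _).norm.continuousOn.integrableOn_compact hK).mul_const _)
      hK.measurableSet fun x _ => ?_
    rw [twist, norm_mul]
    exact mul_le_mul_of_nonneg_left (hD x) (norm_nonneg _)
  calc ∫ ξ, ‖lap φ (freq v ξ)‖
      ≤ ∫ ξ, weight ξ * (A * (c * M)) := integral_mono (integrable_lap hφ hc v).norm
        (integrable_weight.mul_const _) fun ξ => (norm_lap_le hφ hc v ξ).trans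
          (mul_le_mul_of_nonneg_left htw (weight_nonneg ξ))
    _ = _ := by rw [integral_mul_const]; ring

end FA.MalgrangeEhrenpreis

end
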