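import Fermat.Agent.MalgrangeEhrenpreis.Weights
import Mathlib.Analysis.Fourier.FourierTransformDeriv
import Mathlib.Analysis.Distribution.TestFunction
import Mathlib.Topology.Algebra.MvPolynomial

/-!
# The theorem of Malgrange and Ehrenpreis

Wagner's formula gives a fundamental solution of finite order, and smooth solutions of the
inhomogeneous equation.
-/

set_option autoImplicit false

noncomputable section

open MeasureTheory MvPolynomial
open scoped ContDiff ComplexConjugate FourierTransform Distributions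

namespace FA.MalgrangeEhrenpreis

variable {n : ℕ}

/-- The quotient of the conjugate of `P` by `P` on a line; zero at the zeros. -/
def ratio (P : MvPolynomial (Fin n) ℂ) (v : Fin n → ℝ) (ξ : EuclideanSpace ℝ (Fin n)) : ℂ :=
  conj (eval (freq v ξ) P) / eval (freq v ξ) P

theorem norm_ratio_le (P : MvPolynomial (Fin n) ℂ) (v : Fin n → ℝ)
    (ξ : EuclideanSpace ℝ (Fin n)) : ‖ratio P v ξ‖ ≤ 1 := by
  rw [ratio, norm_div, RCLike.norm_conj]
  exact div_self_le_one _

theorem ratio_mul (P : MvPolynomial (Fin n) ℂ) (v : Fin n → ℝ) (ξ : EuclideanSpace ℝ (Fin n)) :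
    ratio P v ξ * eval (freq v ξ) P = conj (eval (freq v ξ) P) :=
  div_mul_cancel_of_imp fun h => by rw [h, map_zero]

theorem measurable_ratio (P : MvPolynomial (Fin n) ℂ) (v : Fin n → ℝ) :
    Measurable (ratio P v) := by
  have h : Continuous fun ξ : EuclideanSpace ℝ (Fin n) => eval (freq v ξ) P :=
    (MvPolynomial.continuous_eval P).comp (continuous_pi fun i => by unfold freq; fun_prop)
  exact (Complex.continuous_conj.comp h).measurable.div h.measurable

theorem integrable_ratio_mul_lap {φ : EuclideanSpace ℝ (Fin n) → ℂ} (hφ : ContDiff ℝ ∞ φ)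
    (hc : HasCompactSupport φ) (P : MvPolynomial (Fin n) ℂ) (v : Fin n → ℝ) :
    Integrable fun ξ => ratio P v ξ * lap φ (freq v ξ) :=
  (integrable_lap hφ hc v).bdd_mul (c := 1) (measurable_ratio P v).aestronglyMeasurable
    (Filter.Eventually.of_forall (norm_ratio_le P v))

/-- **A fundamental solution of finite order**, on functions. -/
theorem exists_fundamental {P : MvPolynomial (Fin n) ℂ} (hP : P ≠ 0) :
    ∃ E : (EuclideanSpace ℝ (Fin n) → ℂ) → ℂ,
      (∀ φ ψ, ContDiff ℝ ∞ φ → HasCompactSupport φ → ContDiff ℝ ∞ ψ → HasCompactSupport ψ →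
        E (φ + ψ) = E φ + E ψ) ∧
      (∀ (c : ℂ) φ, E (c • φ) = c * E φ) ∧
      (∃ N : ℕ, ∀ K : Set (EuclideanSpace ℝ (Fin n)), IsCompact K → ∃ C : ℝ,
        ∀ φ, ContDiff ℝ ∞ φ → tsupport φ ⊆ K →
          ∀ M : ℝ, (∀ k ≤ N, ∀ x, ‖iteratedFDeriv ℝ k φ x‖ ≤ M) → ‖E φ‖ ≤ C * M) ∧
      ∀ φ, ContDiff ℝ ∞ φ → HasCompactSupport φ → E (diffOp (negVars P) φ) = φ 0 := by
  obtain ⟨m, v, a, hw⟩ := exists_weights hP
  refine ⟨fun φ => ∑ j ∈ Finset.range m, a j * ∫ ξ, ratio P (v j) ξ * lap φ (freq (v j) ξ),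
    fun φ ψ hφ hφc hψ hψc => ?_, fun c φ => ?_,
    ⟨(Finset.range m).sup fun j => order (v j), fun K hK => ?_⟩, fun φ hφ hc => ?_⟩
  · rw [← Finset.sum_add_distrib]
    refine Finset.sum_congr rfl fun j _ => ?_
    rw [← mul_add, ← integral_add (integrable_ratio_mul_lap hφ hφc P _)
      (integrable_ratio_mul_lap hψ hψc P _)]
    congr 1
    refine integral_congr_ae (Filter.Eventually.of_forall fun ξ => ?_)
    simp only [lap, Pi.add_apply, mul_add]
    rw [integral_add (integrable_exp_mul hφ.continuous hφc _)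
      (integrable_exp_mul hψ.continuous hψc _), mul_add]
  · rw [Finset.mul_sum]
    refine Finset.sum_congr rfl fun j _ => ?_
    simp only [lap, Pi.smul_apply, smul_eq_mul, mul_left_comm _ c, integral_const_mul]
  · choose C hC using fun j => exists_integral_norm_lap_le (v j) hK
    refine ⟨∑ j ∈ Finset.range m, ‖a j‖ * C j, fun φ hφ hsub M hM => ?_⟩
    have hc : HasCompactSupport φ := hK.of_isClosed_subset isClosed_closure hsub
    rw [Finset.sum_mul]
    refine (norm_sum_le _ _).trans (Finset.sum_le_sum fun j hj => ?_)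
    rw [norm_mul, mul_assoc]
    refine mul_le_mul_of_nonneg_left (((norm_integral_le_integral_norm _).trans
      (integral_mono (integrable_ratio_mul_lap hφ hc P _).norm (integrable_lap hφ hc (v j)).norm
        fun ξ => ?_)).trans (hC j φ hφ hsub M fun k hk =>
          hM k (hk.trans (Finset.le_sup (f := fun j => order (v j)) hj)))) (norm_nonneg _)
    show ‖_‖ ≤ ‖_‖
    rw [norm_mul]
    exact mul_le_of_le_one_left (norm_nonneg _) (norm_ratio_le P (v j) ξ)
  · rw [← (hw φ hφ hc).2]
    refine Finset.sum_congr rfl fun j _ => ?_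
    simp only [lap_diffOp_negVars hφ hc, ← mul_assoc, ratio_mul]

/-- The synthesis of plane waves along a line. -/
def wave (v : Fin n → ℝ) (g : EuclideanSpace ℝ (Fin n) → ℂ) (x : EuclideanSpace ℝ (Fin n)) : ℂ :=
  ∫ ξ, Complex.exp (lin (freq v ξ) x) * g ξ

/-- All moments are integrable. -/
def HasMoments (g : EuclideanSpace ℝ (Fin n) → ℂ) : Prop :=
  AEStronglyMeasurable g ∧ ∀ k : ℕ, Integrable fun ξ => ‖ξ‖ ^ k * ‖g ξ‖

theorem HasMoments.integrable {g : EuclideanSpace ℝ (Fin n) → ℂ} (hg : HasMoments g) :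
    Integrable g :=
  (hg.2 0).mono' hg.1 (Filter.Eventually.of_forall fun ξ => by simp)

theorem HasMoments.coord_mul {g : EuclideanSpace ℝ (Fin n) → ℂ} (hg : HasMoments g)
    (v : Fin n → ℝ) (i : Fin n) : HasMoments fun ξ => freq v ξ i * g ξ := by
  have hm : AEStronglyMeasurable fun ξ => freq v ξ i * g ξ :=
    (Continuous.aestronglyMeasurable (by unfold freq; fun_prop)).mul hg.1
  refine ⟨hm, fun k => (((hg.2 k).const_mul |v i|).add ((hg.2 (k + 1)).const_mul
    (2 * Real.pi))).mono' (((continuous_norm.pow k).aestronglyMeasurable).mul hm.norm)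
    (Filter.Eventually.of_forall fun ξ => ?_)⟩
  have h : ‖freq v ξ i‖ ≤ |v i| + 2 * Real.pi * ‖ξ‖ := by
    refine (norm_sub_le _ _).trans (add_le_add (by simp) ?_)
    simp only [norm_mul, Complex.norm_ofNat, Complex.norm_real, Complex.norm_I, mul_one,
      Real.norm_eq_abs, abs_of_pos Real.pi_pos]
    refine mul_le_mul_of_nonneg_left ?_ (by positivity)
    rw [← Real.norm_eq_abs]
    exact PiLp.norm_apply_le ξ i
  rw [Real.norm_of_nonneg (by positivity), norm_mul, Pi.add_apply]
  calc ‖ξ‖ ^ k * (‖freq v ξ i‖ * ‖g ξ‖) ≤ ‖ξ‖ ^ k * ((|v i| + 2 * Real.pi * ‖ξ‖) * ‖g ξ‖) :=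
        mul_le_mul_of_nonneg_left (mul_le_mul_of_nonneg_right h (norm_nonneg _))
          (pow_nonneg (norm_nonneg _) _)
    _ = _ := by ring

theorem wave_eq (v : Fin n → ℝ) (g : EuclideanSpace ℝ (Fin n) → ℂ) :
    wave v g = fun x => Complex.exp (lin (fun i => (v i : ℂ)) x) * 𝓕 g x := by
  funext x
  rw [Real.fourier_eq', ← integral_const_mul]
  refine integral_congr_ae (Filter.Eventually.of_forall fun ξ => ?_)
  simp only [exp_lin_freq, smul_eq_mul, real_inner_comm x ξ]
  ring

theorem contDiff_wave (v : Fin n → ℝ) {g : EuclideanSpace ℝ (Fin n) → ℂ} (hg : HasMoments g) :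
    ContDiff ℝ ∞ (wave v g) := by
  rw [wave_eq]
  exact (lin _).contDiff.cexp.mul (Real.contDiff_fourier (N := ⊤) fun k _ => hg.2 k)

theorem integrable_wave (v : Fin n → ℝ) {g : EuclideanSpace ℝ (Fin n) → ℂ} (hg : Integrable g)
    (x : EuclideanSpace ℝ (Fin n)) :
    Integrable fun ξ => Complex.exp (lin (freq v ξ) x) * g ξ :=
  hg.bdd_mul (c := ‖Complex.exp (lin (fun i => (v i : ℂ)) x)‖)
    (Continuous.aestronglyMeasurable (by simp only [lin_apply, freq]; fun_prop))
    (Filter.Eventually.of_forall fun ξ => (norm_exp_lin_freq v x ξ).le)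

theorem fderiv_wave (v : Fin n → ℝ) {g : EuclideanSpace ℝ (Fin n) → ℂ} (hg : HasMoments g)
    (i : Fin n) (x : EuclideanSpace ℝ (Fin n)) :
    fderiv ℝ (wave v g) x (EuclideanSpace.single i (1 : ℝ)) =
      wave v (fun ξ => freq v ξ i * g ξ) x := by
  have h1 : Integrable fun ξ => ‖ξ‖ * ‖g ξ‖ := by simpa using hg.2 1
  have hF : HasFDerivAt (𝓕 g) (𝓕 (VectorFourier.fourierSMulRight (innerSL ℝ) g) x) x :=
    Real.hasFDerivAt_fourier hg.integrable h1 x
  have hR : Integrable (VectorFourier.fourierSMulRight (innerSL ℝ) g) := by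
    refine (h1.const_mul (2 * Real.pi)).mono' hg.1.fourierSMulRight
      (Filter.Eventually.of_forall fun ξ =>
        (VectorFourier.norm_fourierSMulRight_le (innerSL ℝ) g ξ).trans ?_)
    rw [mul_assoc _ ‖ξ‖]
    exact mul_le_mul_of_nonneg_right (mul_le_of_le_one_right Real.two_pi_pos.le
      (norm_innerSL_le _)) (by positivity)
  rw [wave_eq, wave_eq]
  refine (congrFun (congrArg DFunLike.coe
    (((lin fun i => (v i : ℂ)).hasFDerivAt.cexp).mul hF).fderiv) _).trans ?_
  simp only [add_apply, smul_apply, lin_single, smul_eq_mul]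
  rw [Real.fourier_continuousLinearMap_apply hR]
  have hcoord : Integrable fun ξ : EuclideanSpace ℝ (Fin n) =>
      VectorFourier.fourierSMulRight (innerSL ℝ) g ξ (EuclideanSpace.single i (1 : ℝ)) :=
    hR.apply_continuousLinearMap _
  have hsplit : 𝓕 (fun ξ => freq v ξ i * g ξ) x = (v i : ℂ) * 𝓕 g x + 𝓕 (fun ξ =>
      VectorFourier.fourierSMulRight (innerSL ℝ) g ξ (EuclideanSpace.single i (1 : ℝ))) x := by
    simp only [Real.fourier_eq', smul_eq_mul]
    have hb : ∀ f : EuclideanSpace ℝ (Fin n) → ℂ, Integrable f → Integrable fun ξ =>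
        Complex.exp (((-2 * Real.pi * (inner ℝ ξ x : ℝ) : ℝ) : ℂ) * Complex.I) * f ξ :=
      fun f hf => hf.bdd_mul (c := 1) (Continuous.aestronglyMeasurable (by fun_prop))
        (Filter.Eventually.of_forall fun ξ => (Complex.norm_exp_ofReal_mul_I _).le)
    rw [← integral_const_mul, ← integral_add ((hb g hg.integrable).const_mul _) (hb _ hcoord)]
    refine integral_congr_ae (Filter.Eventually.of_forall fun ξ => ?_)
    simp only [VectorFourier.fourierSMulRight_apply, innerSL_apply_apply ℝ, freq,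
      EuclideanSpace.inner_single_right, smul_eq_mul, Complex.real_smul, conj_trivial, one_mul]
    ring
  rw [hsplit]
  ring

theorem HasMoments.list_mul {g : EuclideanSpace ℝ (Fin n) → ℂ} (hg : HasMoments g)
    (v : Fin n → ℝ) : ∀ l : List (Fin n), HasMoments fun ξ => (l.map (freq v ξ)).prod * g ξ
  | [] => by simpa using hg
  | i :: l => by simpa [mul_assoc] using (HasMoments.list_mul hg v l).coord_mul v i

/-- The derivatives of a combination of waves. -/
theorem pd_waves {m : ℕ} (v : ℕ → Fin n → ℝ) (a : ℕ → ℂ)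
    {g : ℕ → EuclideanSpace ℝ (Fin n) → ℂ} (hg : ∀ j, HasMoments (g j)) :
    ∀ l : List (Fin n), pd l (fun x => ∑ j ∈ Finset.range m, a j * wave (v j) (g j) x) =
      fun x => ∑ j ∈ Finset.range m,
        a j * wave (v j) (fun ξ => (l.map (freq (v j) ξ)).prod * g j ξ) x
  | [] => by simp [pd_nil]
  | i :: l => by
    have hu : ContDiff ℝ ∞ fun x => ∑ j ∈ Finset.range m, a j * wave (v j) (g j) x :=
      ContDiff.sum fun j _ => contDiff_const.mul (contDiff_wave _ (hg j))
    rw [pd_cons hu, pd_waves v a hg l]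
    funext x
    have hd : ∀ j, DifferentiableAt ℝ
        (wave (v j) fun ξ => (l.map (freq (v j) ξ)).prod * g j ξ) x := fun j =>
      (contDiff_wave _ ((hg j).list_mul (v j) l)).differentiable (by simp) x
    rw [fderiv_fun_sum fun j _ => (hd j).const_mul (a j), sum_apply]
    refine Finset.sum_congr rfl fun j _ => ?_
    rw [fderiv_const_mul (hd j), smul_apply,
      fderiv_wave _ ((hg j).list_mul (v j) l), smul_eq_mul]
    simp [mul_assoc]

/-- The transform of a translate of the reflection. -/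
theorem lap_comp_sub (f : EuclideanSpace ℝ (Fin n) → ℂ) (x : EuclideanSpace ℝ (Fin n))
    (z : Fin n → ℂ) :
    lap (fun y => f (x - y)) z = Complex.exp (lin z x) * lap (fun y => f (-y)) z := by
  unfold lap
  rw [← integral_add_left_eq_self _ x, ← integral_const_mul]
  refine integral_congr_ae (Filter.Eventually.of_forall fun y => ?_)
  simp only [map_add, Complex.exp_add, sub_add_cancel_left]
  ring

/-- **Smooth solutions of the inhomogeneous equation.** -/
theorem exists_solution {P : MvPolynomial (Fin n) ℂ} (hP : P ≠ 0)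
    {f : EuclideanSpace ℝ (Fin n) → ℂ} (hf : ContDiff ℝ ∞ f) (hc : HasCompactSupport f) :
    ∃ u : EuclideanSpace ℝ (Fin n) → ℂ, ContDiff ℝ ∞ u ∧ ∀ x, diffOp P u x = f x := by
  obtain ⟨m, v, a, hw⟩ := exists_weights hP
  set φ₀ : EuclideanSpace ℝ (Fin n) → ℂ := fun y => f (-y)
  have hφ₀ : ContDiff ℝ ∞ φ₀ := hf.comp contDiff_neg
  have hc₀ : HasCompactSupport φ₀ := hc.comp_homeomorph (Homeomorph.neg _)
  set g : ℕ → EuclideanSpace ℝ (Fin n) → ℂ := fun j ξ => ratio P (v j) ξ * lap φ₀ (freq (v j) ξ)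
  have hg : ∀ j, HasMoments (g j) := fun j => by
    have hi := integrable_ratio_mul_lap hφ₀ hc₀ P (v j)
    refine ⟨hi.aestronglyMeasurable, fun k => (integrable_pow_mul_lap hφ₀ hc₀ (v j) k).mono'
      (((continuous_norm.pow k).aestronglyMeasurable).mul hi.aestronglyMeasurable.norm)
      (Filter.Eventually.of_forall fun ξ => ?_)⟩
    rw [Real.norm_of_nonneg (by positivity), norm_mul]
    exact mul_le_mul_of_nonneg_left (mul_le_of_le_one_left (norm_nonneg _) (norm_ratio_le P _ ξ))
      (pow_nonneg (norm_nonneg _) _)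
  refine ⟨fun x => ∑ j ∈ Finset.range m, a j * wave (v j) (g j) x,
    ContDiff.sum fun j _ => contDiff_const.mul (contDiff_wave _ (hg j)), fun x => ?_⟩
  set φ : EuclideanSpace ℝ (Fin n) → ℂ := fun y => f (x - y) with hφdef
  have hφ : ContDiff ℝ ∞ φ := hf.comp (contDiff_const.sub contDiff_id)
  have hφc : HasCompactSupport φ := by
    have h := hc.comp_homeomorph ((Homeomorph.neg _).trans (Homeomorph.addLeft x))
    simpa [φ, Function.comp_def, ← sub_eq_add_neg] using h
  rw [show f x = φ 0 by simp [φ], ← (hw φ hφ hφc).2]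
  unfold diffOp
  simp only [pd_waves v a hg, Finset.mul_sum]
  rw [Finset.sum_comm]
  refine Finset.sum_congr rfl fun j _ => ?_
  simp only [mul_left_comm _ (a j), ← Finset.mul_sum]
  congr 1
  simp only [wave, ← integral_const_mul]
  rw [← integral_finsetSum _ fun α _ =>
    (integrable_wave (v j) ((hg j).list_mul (v j) _).integrable x).const_mul _]
  refine integral_congr_ae (Filter.Eventually.of_forall fun ξ => ?_)
  simp only [hφdef, lap_comp_sub, prod_map_toList, g]
  rw [← ratio_mul P (v j) ξ, eval_eq, Finset.mul_sum, Finset.sum_mul]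
  exact Finset.sum_congr rfl fun α _ => by ring

/-- **A fundamental solution among Mathlib's distributions.** -/
theorem exists_testFunction_fundamental {P : MvPolynomial (Fin n) ℂ} (hP : P ≠ 0) :
    ∃ T : 𝓓((⊤ : TopologicalSpace.Opens (EuclideanSpace ℝ (Fin n))), ℂ) →L[ℂ] ℂ,
      ∀ φ : 𝓓((⊤ : TopologicalSpace.Opens (EuclideanSpace ℝ (Fin n))), ℂ),
        ∃ ψ : 𝓓((⊤ : TopologicalSpace.Opens (EuclideanSpace ℝ (Fin n))), ℂ),
          ⇑ψ = diffOp (negVars P) φ ∧ T ψ = φ 0 := by
  obtain ⟨E, hadd, hsmul, ⟨N, hN⟩, hfund⟩ := exists_fundamental hP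
  refine ⟨TestFunction.mkCLM ℂ (fun φ => E φ)
    (fun φ ψ => hadd φ ψ φ.contDiff φ.hasCompactSupport ψ.contDiff ψ.hasCompactSupport)
    (fun c φ => hsmul c φ) (fun K K_sub => ?_), fun φ => ?_⟩
  · obtain ⟨C, hC⟩ := hN K K.isCompact
    refine (ContDiffMapSupportedIn.mkCLMtoNormedSpace ℂ (fun f => E f)
      (fun f g => hadd f g f.contDiff f.compact_supp g.contDiff g.compact_supp)
      (fun c f => hsmul c f)
      ⟨Finset.range (N + 1), max C 0, le_max_right _ _, fun f => ?_⟩).continuous
    refine (hC f f.contDiff f.tsupport_subset _ fun k hk x => ?_).trans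
      (mul_le_mul_of_nonneg_right (le_max_left _ _) (apply_nonneg _ _))
    exact (ContDiffMapSupportedIn.norm_iteratedFDeriv_apply_le_seminorm_top ℂ).trans
      (Seminorm.le_finset_sup_apply (Finset.mem_range.2 (Nat.lt_succ_of_le hk)))
  · exact ⟨⟨diffOp (negVars P) φ, contDiff_diffOp φ.contDiff _,
      hasCompactSupport_diffOp φ.hasCompactSupport _, Set.subset_univ _⟩, rfl,
      hfund φ φ.contDiff φ.hasCompactSupport⟩

end FA.MalgrangeEhrenpreis

end
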