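import Mathlib.Algebra.MvPolynomial.Eval
import Mathlib.Analysis.Calculus.ContDiff.Operations
import Mathlib.Analysis.Calculus.FDeriv.CompCLM
import Mathlib.Analysis.Calculus.LineDeriv.IntegrationByParts
import Mathlib.Analysis.SpecialFunctions.ExpDeriv
import Mathlib.Analysis.InnerProductSpace.PiL2
import Mathlib.MeasureTheory.Measure.Haar.InnerProductSpace

/-!
# Operators with constant coefficients and the Laplace transform

On functions of compact support the transform turns the operator of the polynomial `Q` into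
multiplication by `Q (-z)`.
-/

set_option autoImplicit false

noncomputable section

open MeasureTheory
open scoped ContDiff

namespace FA.MalgrangeEhrenpreis

variable {n : ℕ}

/-- The iterated partial derivative along a list of coordinates. -/
def pd (l : List (Fin n)) (φ : EuclideanSpace ℝ (Fin n) → ℂ) (x : EuclideanSpace ℝ (Fin n)) : ℂ :=
  iteratedFDeriv ℝ l.length φ x fun k => EuclideanSpace.single (l.get k) (1 : ℝ)

/-- The operator with constant coefficients given by a polynomial. -/
def diffOp (P : MvPolynomial (Fin n) ℂ) (φ : EuclideanSpace ℝ (Fin n) → ℂ)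
    (x : EuclideanSpace ℝ (Fin n)) : ℂ :=
  ∑ α ∈ P.support, P.coeff α * pd (Finsupp.toMultiset α).toList φ x

/-- The pairing with a complex frequency. -/
def lin (z : Fin n → ℂ) : EuclideanSpace ℝ (Fin n) →L[ℝ] ℂ :=
  ∑ i, z i • (Complex.ofRealCLM.comp (EuclideanSpace.proj (𝕜 := ℝ) i))

/-- The two-sided Laplace transform. -/
def lap (φ : EuclideanSpace ℝ (Fin n) → ℂ) (z : Fin n → ℂ) : ℂ :=
  ∫ x, Complex.exp (lin z x) * φ x

theorem lin_apply (z : Fin n → ℂ) (x : EuclideanSpace ℝ (Fin n)) :
    lin z x = ∑ i, z i * x i := by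
  simp [lin, sum_apply]

theorem lin_single (z : Fin n → ℂ) (i : Fin n) :
    lin z (EuclideanSpace.single i (1 : ℝ)) = z i := by
  simp [lin_apply, apply_ite Complex.ofReal]

theorem pd_nil (φ : EuclideanSpace ℝ (Fin n) → ℂ) : pd [] φ = φ :=
  funext fun _ => iteratedFDeriv_zero_apply _

variable {φ : EuclideanSpace ℝ (Fin n) → ℂ}

theorem contDiff_pd (hφ : ContDiff ℝ ∞ φ) (l : List (Fin n)) : ContDiff ℝ ∞ (pd l φ) :=
  (ContinuousMultilinearMap.apply ℝ (fun _ : Fin l.length => EuclideanSpace ℝ (Fin n)) ℂ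
    fun k => EuclideanSpace.single (l.get k) (1 : ℝ)).contDiff.comp
    (hφ.iteratedFDeriv_right (m := ∞) (i := l.length) le_rfl)

theorem pd_cons (hφ : ContDiff ℝ ∞ φ) (i : Fin n) (l : List (Fin n)) :
    pd (i :: l) φ = fun x => fderiv ℝ (pd l φ) x (EuclideanSpace.single i (1 : ℝ)) := by
  funext x
  have hd : DifferentiableAt ℝ (iteratedFDeriv ℝ l.length φ) x :=
    (hφ.iteratedFDeriv_right (m := 1) (i := l.length) (by exact_mod_cast le_top)).differentiable
      one_ne_zero x
  unfold pd
  rw [fderiv_continuousMultilinear_apply_const_apply hd]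
  rfl

theorem norm_pd_le (l : List (Fin n)) (x : EuclideanSpace ℝ (Fin n)) :
    ‖pd l φ x‖ ≤ ‖iteratedFDeriv ℝ l.length φ x‖ :=
  ((iteratedFDeriv ℝ l.length φ x).le_opNorm _).trans (by simp)

theorem tsupport_pd (l : List (Fin n)) : tsupport (pd l φ) ⊆ tsupport φ :=
  (closure_mono fun x (hx : pd l φ x ≠ 0) =>
    show iteratedFDeriv ℝ l.length φ x ≠ 0 from fun h => hx (by simp [pd, h])).trans
    (tsupport_iteratedFDeriv_subset l.length)

theorem hasCompactSupport_pd (hc : HasCompactSupport φ) (l : List (Fin n)) :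
    HasCompactSupport (pd l φ) :=
  hc.of_isClosed_subset isClosed_closure (tsupport_pd l)

theorem contDiff_diffOp (hφ : ContDiff ℝ ∞ φ) (P : MvPolynomial (Fin n) ℂ) :
    ContDiff ℝ ∞ (diffOp P φ) :=
  ContDiff.sum fun _ _ => contDiff_const.mul (contDiff_pd hφ _)

theorem tsupport_diffOp (P : MvPolynomial (Fin n) ℂ) : tsupport (diffOp P φ) ⊆ tsupport φ := by
  refine closure_minimal (fun x hx => ?_) isClosed_closure
  obtain ⟨α, -, hα⟩ := Finset.exists_ne_zero_of_sum_ne_zero hx
  exact tsupport_pd _ (subset_closure (right_ne_zero_of_mul hα))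

theorem hasCompactSupport_diffOp (hc : HasCompactSupport φ) (P : MvPolynomial (Fin n) ℂ) :
    HasCompactSupport (diffOp P φ) :=
  hc.of_isClosed_subset isClosed_closure (tsupport_diffOp P)

theorem diffOp_C (c : ℂ) : diffOp (MvPolynomial.C c) φ = fun x => c * φ x := by
  classical
  funext x
  rcases eq_or_ne c 0 with rfl | hc
  · simp [diffOp]
  · rw [← MvPolynomial.monomial_zero', diffOp, MvPolynomial.support_monomial, if_neg hc,
      Finset.sum_singleton, MvPolynomial.coeff_monomial, if_pos rfl]
    simp [pd_nil]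

theorem continuous_exp_lin (z : Fin n → ℂ) :
    Continuous fun x => Complex.exp (lin z x) :=
  Complex.continuous_exp.comp (lin z).continuous

theorem integrable_exp_mul (hφ : Continuous φ) (hc : HasCompactSupport φ) (z : Fin n → ℂ) :
    Integrable fun x => Complex.exp (lin z x) * φ x :=
  ((continuous_exp_lin z).mul hφ).integrable_of_hasCompactSupport hc.mul_left

theorem lap_fderiv (hφ : ContDiff ℝ ∞ φ) (hc : HasCompactSupport φ) (z : Fin n → ℂ) (i : Fin n) :
    lap (fun x => fderiv ℝ φ x (EuclideanSpace.single i (1 : ℝ))) z = -(z i) * lap φ z := by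
  set v : EuclideanSpace ℝ (Fin n) := EuclideanSpace.single i (1 : ℝ)
  have he : ∀ x, fderiv ℝ (fun x => Complex.exp (lin z x)) x v =
      z i * Complex.exp (lin z x) := fun x => by
    rw [((lin z).hasFDerivAt.cexp).fderiv, smul_apply, lin_single, smul_eq_mul, mul_comm]
  have hg' : Continuous fun x => fderiv ℝ φ x v :=
    (hφ.continuous_fderiv (by simp)).clm_apply continuous_const
  have h1 : Integrable fun x => fderiv ℝ (fun x => Complex.exp (lin z x)) x v * φ x := by
    simp only [he]
    simpa only [mul_assoc] using (integrable_exp_mul hφ.continuous hc z).const_mul (z i)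
  unfold lap
  rw [integral_mul_fderiv_eq_neg_fderiv_mul_of_integrable h1
    (integrable_exp_mul hg' (hc.fderiv_apply ℝ v) z) (integrable_exp_mul hφ.continuous hc z)
    (fun x _ => (lin z).hasFDerivAt.cexp.differentiableAt)
    (fun x _ => hφ.differentiable (by simp) x), neg_mul, ← integral_const_mul]
  simp only [he, mul_assoc]

theorem lap_pd (hφ : ContDiff ℝ ∞ φ) (hc : HasCompactSupport φ) (z : Fin n → ℂ) :
    ∀ l : List (Fin n), lap (pd l φ) z = (l.map fun i => -(z i)).prod * lap φ z
  | [] => by simp [pd_nil]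
  | i :: l => by
    rw [pd_cons hφ, lap_fderiv (contDiff_pd hφ l) (hasCompactSupport_pd hc l), lap_pd hφ hc z l,
      List.map_cons, List.prod_cons, mul_assoc]

theorem prod_map_toList (α : Fin n →₀ ℕ) (g : Fin n → ℂ) :
    ((Finsupp.toMultiset α).toList.map g).prod = ∏ i ∈ α.support, g i ^ α i := by
  rw [← Multiset.prod_coe, ← Multiset.map_coe, Multiset.coe_toList, Finsupp.toMultiset_map,
    Finsupp.prod_toMultiset, Finsupp.prod_mapDomain_index (by simp) (by simp [pow_add])]
  rfl

/-- **The transform of an operator.** -/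
theorem lap_diffOp (hφ : ContDiff ℝ ∞ φ) (hc : HasCompactSupport φ)
    (Q : MvPolynomial (Fin n) ℂ) (z : Fin n → ℂ) :
    lap (diffOp Q φ) z = MvPolynomial.eval (-z) Q * lap φ z := by
  rw [MvPolynomial.eval_eq, Finset.sum_mul]
  unfold lap diffOp
  simp only [Finset.mul_sum]
  rw [integral_finsetSum]
  · refine Finset.sum_congr rfl fun α _ => ?_
    simp only [mul_left_comm _ (Q.coeff α)]
    rw [integral_const_mul]
    show Q.coeff α * lap (pd _ φ) z = _
    rw [lap_pd hφ hc, prod_map_toList, mul_assoc]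
    rfl
  · intro α _
    simp only [mul_left_comm _ (Q.coeff α)]
    exact (integrable_exp_mul (contDiff_pd hφ _).continuous (hasCompactSupport_pd hc _) z).const_mul
      _

/-- The substitution of `-X` for `X`. -/
def negVars (Q : MvPolynomial (Fin n) ℂ) : MvPolynomial (Fin n) ℂ :=
  MvPolynomial.aeval (fun i => -MvPolynomial.X i) Q

theorem eval_negVars (Q : MvPolynomial (Fin n) ℂ) (z : Fin n → ℂ) :
    MvPolynomial.eval (-z) (negVars Q) = MvPolynomial.eval z Q := by
  unfold negVars
  induction Q using MvPolynomial.induction_on with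
  | C a => simp
  | add p q hp hq => simp [hp, hq]
  | mul_X p i hp => simp [hp]

theorem lap_diffOp_negVars (hφ : ContDiff ℝ ∞ φ) (hc : HasCompactSupport φ)
    (Q : MvPolynomial (Fin n) ℂ) (z : Fin n → ℂ) :
    lap (diffOp (negVars Q) φ) z = MvPolynomial.eval z Q * lap φ z := by
  rw [lap_diffOp hφ hc, eval_negVars]

end FA.MalgrangeEhrenpreis

end
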