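import Fermat.Agent.MalgrangeEhrenpreis.Fourier
import Mathlib.Algebra.MvPolynomial.Funext
import Mathlib.Algebra.Polynomial.Degree.Lemmas
import Mathlib.LinearAlgebra.Lagrange
import Mathlib.RingTheory.MvPolynomial.Homogeneous

/-!
# Wagner's weights

Along `j w / 2 - 2 π i ξ` the conjugate of `P` is a polynomial in `j` whose top coefficient is a
nonzero constant; Lagrange weights extract it.
-/

set_option autoImplicit false

noncomputable section

open MeasureTheory MvPolynomial
open scoped ContDiff ComplexConjugate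

namespace FA.MalgrangeEhrenpreis

variable {n : ℕ}

theorem exists_direction {Q : MvPolynomial (Fin n) ℂ} (hQ : Q ≠ 0) :
    ∃ w : Fin n → ℝ, eval (fun i => (w i : ℂ)) (homogeneousComponent Q.totalDegree Q) ≠ 0 := by
  classical
  by_contra hc
  simp only [not_exists, not_not] at hc
  obtain ⟨d, hd, hdeg⟩ := Finset.exists_mem_eq_sup _ (support_nonempty.2 hQ)
    fun s : Fin n →₀ ℕ => s.sum fun _ e => e
  have h0 : homogeneousComponent Q.totalDegree Q = 0 := by
    refine funext_set (fun _ => Set.range Complex.ofReal)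
      (fun _ => Set.infinite_range_of_injective Complex.ofReal_injective) fun x hx => ?_
    choose w hw using fun i => hx i (Set.mem_univ i)
    rw [map_zero, ← funext hw]
    exact hc w
  have := congrArg (coeff d) h0
  rw [coeff_homogeneousComponent, coeff_zero,
    if_pos (show Finsupp.degree d = Q.totalDegree from hdeg.symm)] at this
  exact (mem_support_iff.1 hd) this

/-- `Q` at `t w - X` as a polynomial in `t`. -/
def pencil (w : Fin n → ℝ) (Q : MvPolynomial (Fin n) ℂ) : Polynomial (MvPolynomial (Fin n) ℂ) :=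
  aeval (fun i => Polynomial.C (-X i) + Polynomial.X * Polynomial.C (C (w i : ℂ))) Q

theorem eval_pencil (w : Fin n → ℝ) (Q : MvPolynomial (Fin n) ℂ) (t : ℂ) (z : Fin n → ℂ) :
    eval z ((pencil w Q).eval (C t)) = eval (fun i => t * w i - z i) Q := by
  unfold pencil
  induction Q using MvPolynomial.induction_on with
  | C a => simp
  | add p q hp hq => rw [map_add, Polynomial.eval_add, map_add, hp, hq, map_add]
  | mul_X p i hp =>
    rw [map_mul, aeval_X, Polynomial.eval_mul, map_mul, hp, map_mul]
    congr 1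
    simp
    ring

theorem natDegree_factor_le (w : Fin n → ℝ) (i : Fin n) :
    (Polynomial.C (-(X i : MvPolynomial (Fin n) ℂ)) +
      Polynomial.X * Polynomial.C (C (w i : ℂ))).natDegree ≤ 1 := by
  refine (Polynomial.natDegree_add_le _ _).trans (max_le (by simp) ?_)
  refine Polynomial.natDegree_mul_le.trans ?_
  simp

theorem natDegree_monomial_le (w : Fin n → ℝ) (d : Fin n →₀ ℕ) (s : Finset (Fin n)) :
    (∏ i ∈ s, (Polynomial.C (-(X i : MvPolynomial (Fin n) ℂ)) +
        Polynomial.X * Polynomial.C (C (w i : ℂ))) ^ d i).natDegree ≤ ∑ i ∈ s, d i :=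
  (Polynomial.natDegree_prod_le _ _).trans (Finset.sum_le_sum fun i _ =>
    Polynomial.natDegree_pow_le.trans (mul_le_of_le_one_right' (natDegree_factor_le w i)))

theorem coeff_monomial_top (w : Fin n → ℝ) (d : Fin n →₀ ℕ) (s : Finset (Fin n)) :
    (∏ i ∈ s, (Polynomial.C (-(X i : MvPolynomial (Fin n) ℂ)) +
        Polynomial.X * Polynomial.C (C (w i : ℂ))) ^ d i).coeff (∑ i ∈ s, d i) =
      C (∏ i ∈ s, (w i : ℂ) ^ d i) := by
  classical
  induction s using Finset.induction_on with
  | empty => simp
  | insert a s ha ih =>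
    rw [Finset.prod_insert ha, Finset.sum_insert ha, Finset.prod_insert ha,
      Polynomial.coeff_mul_add_eq_of_natDegree_le (Polynomial.natDegree_pow_le.trans
        (mul_le_of_le_one_right' (natDegree_factor_le w a))) (natDegree_monomial_le w d s), ih,
      map_mul, map_pow]
    congr 1
    have h := Polynomial.coeff_pow_of_natDegree_le (m := d a) (natDegree_factor_le w a)
    rw [mul_one] at h
    rw [h]
    simp

theorem pencil_eq (w : Fin n → ℝ) (Q : MvPolynomial (Fin n) ℂ) :
    pencil w Q = ∑ d ∈ Q.support, Polynomial.C (C (Q.coeff d)) *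
      ∏ i ∈ d.support, (Polynomial.C (-X i) + Polynomial.X * Polynomial.C (C (w i : ℂ))) ^ d i := by
  rw [pencil, aeval_def, eval₂_eq]
  rfl

theorem natDegree_pencil_le (w : Fin n → ℝ) (Q : MvPolynomial (Fin n) ℂ) :
    (pencil w Q).natDegree ≤ Q.totalDegree := by
  rw [pencil_eq]
  refine Polynomial.natDegree_sum_le_of_forall_le _ _ fun d hd => ?_
  exact (Polynomial.natDegree_C_mul_le _ _).trans
    ((natDegree_monomial_le w d _).trans (le_totalDegree hd))

theorem coeff_pencil (w : Fin n → ℝ) (Q : MvPolynomial (Fin n) ℂ) :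
    (pencil w Q).coeff Q.totalDegree =
      C (eval (fun i => (w i : ℂ)) (homogeneousComponent Q.totalDegree Q)) := by
  classical
  rw [pencil_eq, Polynomial.finsetSum_coeff, homogeneousComponent_apply, map_sum, map_sum,
    Finset.sum_filter]
  refine Finset.sum_congr rfl fun d hd => ?_
  rw [Polynomial.coeff_C_mul]
  split_ifs with h
  · rw [← h]
    show C (Q.coeff d) * Polynomial.coeff _ (∑ i ∈ d.support, d i) = _
    rw [coeff_monomial_top, ← map_mul, eval_monomial]
    rfl
  · rw [Polynomial.coeff_eq_zero_of_natDegree_lt ((natDegree_monomial_le w d _).trans_lt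
      (lt_of_le_of_ne (le_totalDegree hd) h)), mul_zero]

theorem exists_interpolation (m : ℕ) :
    ∃ a : ℕ → ℂ, ∀ k ≤ m, ∑ j ∈ Finset.range (m + 1), a j * (j : ℂ) ^ k =
      if k = m then 1 else 0 := by
  refine ⟨fun j => (Lagrange.basis (Finset.range (m + 1)) (fun j : ℕ => (j : ℂ)) j).coeff m,
    fun k hk => ?_⟩
  have h := congrArg (fun p => Polynomial.coeff p m)
    (Lagrange.eq_interpolate (f := (Polynomial.X : Polynomial ℂ) ^ k)
      (s := Finset.range (m + 1)) (v := fun j : ℕ => (j : ℂ))
      (fun x _ y _ e => Nat.cast_injective e)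
      (by rw [Polynomial.degree_X_pow, Finset.card_range]; exact_mod_cast Nat.lt_succ_of_le hk))
  simp only [Polynomial.coeff_X_pow, Lagrange.interpolate_apply, Polynomial.finsetSum_coeff,
    Polynomial.coeff_C_mul, Polynomial.eval_pow, Polynomial.eval_X, eq_comm (a := m)] at h
  rw [h]
  exact Finset.sum_congr rfl fun j _ => mul_comm _ _

theorem conj_eval (P : MvPolynomial (Fin n) ℂ) (z : Fin n → ℂ) :
    conj (eval z P) = eval (fun i => conj (z i)) (map (starRingEnd ℂ) P) := by
  rw [eval_map]
  exact eval₂_comp_left _ _ _ _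

/-- **Wagner's weights**: some combination of the integrals of the conjugate of `P` times the
transform on vertical lines is the value at the origin. -/
theorem exists_weights {P : MvPolynomial (Fin n) ℂ} (hP : P ≠ 0) :
    ∃ (m : ℕ) (v : ℕ → Fin n → ℝ) (a : ℕ → ℂ),
      ∀ φ : EuclideanSpace ℝ (Fin n) → ℂ, ContDiff ℝ ∞ φ → HasCompactSupport φ →
        (∀ j, Integrable fun ξ => conj (eval (freq (v j) ξ) P) * lap φ (freq (v j) ξ)) ∧
        ∑ j ∈ Finset.range m, a j *
          ∫ ξ, conj (eval (freq (v j) ξ) P) * lap φ (freq (v j) ξ) = φ 0 := by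
  set Q := map (starRingEnd ℂ) P
  have hQ : Q ≠ 0 := fun h =>
    hP (map_injective _ (starRingEnd ℂ).injective (by rw [map_zero]; exact h))
  obtain ⟨w, hw⟩ := exists_direction hQ
  set m := Q.totalDegree
  set κ := eval (fun i => (w i : ℂ)) (homogeneousComponent m Q)
  obtain ⟨a, ha⟩ := exists_interpolation m
  refine ⟨m + 1, fun j i => (j : ℝ) / 2 * w i, fun j => κ⁻¹ * a j, fun φ hφ hc => ?_⟩
  set Qk : ℕ → MvPolynomial (Fin n) ℂ := (pencil w Q).coeff
  have hdec : ∀ (j : ℕ) ξ, conj (eval (freq (fun i => (j : ℝ) / 2 * w i) ξ) P) *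
      lap φ (freq (fun i => (j : ℝ) / 2 * w i) ξ) = ∑ k ∈ Finset.range (m + 1), (j : ℂ) ^ k *
        lap (diffOp (negVars (Qk k)) φ) (freq (fun i => (j : ℝ) / 2 * w i) ξ) := fun j ξ => by
    rw [conj_eval]
    have e : (fun i => conj (freq (fun i => (j : ℝ) / 2 * w i) ξ i)) =
        fun i => (j : ℂ) * w i - freq (fun i => (j : ℝ) / 2 * w i) ξ i := by
      funext i
      simp only [freq, map_sub, map_mul, map_ofNat, Complex.conj_ofReal, Complex.conj_I]
      push_cast
      ring
    rw [e, ← eval_pencil,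
      Polynomial.eval_eq_sum_range' (Nat.lt_succ_of_le (natDegree_pencil_le w Q)),
      map_sum, Finset.sum_mul]
    refine Finset.sum_congr rfl fun k _ => ?_
    rw [map_mul, map_pow, eval_C, lap_diffOp_negVars hφ hc]
    ring
  have hint : ∀ (j k : ℕ), Integrable fun ξ => (j : ℂ) ^ k *
      lap (diffOp (negVars (Qk k)) φ) (freq (fun i => (j : ℝ) / 2 * w i) ξ) := fun j k =>
    (integrable_lap (contDiff_diffOp hφ _) (hasCompactSupport_diffOp hc _) _).const_mul _
  refine ⟨fun j => by simpa only [hdec] using integrable_finsetSum _ fun k _ => hint j k, ?_⟩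
  calc _ = ∑ j ∈ Finset.range (m + 1), κ⁻¹ * a j *
        ∑ k ∈ Finset.range (m + 1), (j : ℂ) ^ k * diffOp (negVars (Qk k)) φ 0 := by
        refine Finset.sum_congr rfl fun j _ => ?_
        simp only [hdec]
        rw [integral_finsetSum _ fun k _ => hint j k]
        congr 1
        refine Finset.sum_congr rfl fun k _ => ?_
        rw [integral_const_mul, integral_lap (contDiff_diffOp hφ _) (hasCompactSupport_diffOp hc _)]
    _ = κ⁻¹ * ∑ k ∈ Finset.range (m + 1),
          (∑ j ∈ Finset.range (m + 1), a j * (j : ℂ) ^ k) * diffOp (negVars (Qk k)) φ 0 := by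
        simp only [Finset.mul_sum, Finset.sum_mul]
        rw [Finset.sum_comm]
        exact Finset.sum_congr rfl fun k _ => Finset.sum_congr rfl fun j _ => by ring
    _ = φ 0 := by
        rw [Finset.sum_eq_single_of_mem m (Finset.self_mem_range_succ m) fun k hk hkm => by
          rw [ha k (Nat.lt_succ_iff.1 (Finset.mem_range.1 hk)), if_neg hkm, zero_mul],
          ha m le_rfl, if_pos rfl, one_mul]
        rw [show negVars (Qk m) = C κ by simp [Qk, negVars, coeff_pencil, κ, m], diffOp_C,
          ← mul_assoc, inv_mul_cancel₀ hw, one_mul]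

end FA.MalgrangeEhrenpreis

end
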